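/-
S42 / Program A, DESC route (report #1867), leaf (SETUP) (helper74): DEFINITIONS.

`ConstFamily K L FK FL A O`: the "constant family".  `K ≤ L` fields, `A` a valuation subring of
`L` containing `K`; `FK / K` a field extension (a function field), `FL ⊇ L, FK` the field generated
by `L` and `FK`; `O` a valuation subring of `FL` which is the *Gauss ring* of the pair
`(A, FK)`: an `L`-combination of a `K`-linearly independent family of `FK` lies in `O` iff all
its coefficients lie in `A` (sup-norm), and every nonzero element of `FL` is a constant times a
unit of `O`.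

The theorem `setup_const` (file `ConstSetup.lean`) says that such a family is a
`Fermat.Agent.S18.H74.Setup` for every nonconstant base function `x ∈ FK`.
-/
import Mathlib
import Fermat.Agent.S18.H74.Setup

set_option autoImplicit false

noncomputable section

namespace Fermat.Agent.S42.H74

/-- The constant family over `(K ≤ L, A)`: `O` is the Gauss valuation ring of `FL = L(FK)`. -/
structure ConstFamily (K L FK FL : Type*) [Field K] [Field L] [Field FK] [Field FL]
    [Algebra K L] [Algebra K FK] [Algebra L FL] [Algebra FK FL] [Algebra K FL]
    [IsScalarTower K L FL] [IsScalarTower K FK FL]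
    (A : ValuationSubring L) (O : ValuationSubring FL) : Prop where
  /-- `K ⊆ A`. -/
  const_mem : ∀ c : K, algebraMap K L c ∈ A
  /-- sup-norm: an `L`-combination of a `K`-independent family of `FK` is in `O` iff its
  coefficients are in `A`. -/
  gauss : ∀ (n : ℕ) (a : Fin n → L) (e : Fin n → FK), LinearIndependent K e →
    ((∑ i, algebraMap L FL (a i) * algebraMap FK FL (e i)) ∈ O ↔ ∀ i, a i ∈ A)
  /-- the value group of `O` is that of `A`. -/
  scale : ∀ f : FL, f ≠ 0 →
    ∃ c : L, c ≠ 0 ∧ algebraMap L FL c * f ∈ O ∧ (algebraMap L FL c * f)⁻¹ ∈ O
  /-- `FL` is generated by `L` and `FK`. -/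
  gen : IntermediateField.adjoin L (Set.range (algebraMap FK FL)) = ⊤

end Fermat.Agent.S42.H74
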