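/-
S42 / Program A, DESC route (report #1867), leaf (SETUP) (helper74): first consequences of
`ConstFamily` — `O ∩ L = A`, nonzero elements of `FK` are units of `O`, the Gauss property of a
nonconstant `x ∈ FK`, and the ring homomorphism `K(x) → L(x)`.
-/
import Fermat.Agent.S42.H74.ConstDefs
import Fermat.Agent.S18.H49.Cartesian

set_option autoImplicit false

open IntermediateField Polynomial

noncomputable section

namespace Fermat.Agent.S42.H74

variable {K L FK FL : Type*} [Field K] [Field L] [Field FK] [Field FL]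
  [Algebra K L] [Algebra K FK] [Algebra L FL] [Algebra FK FL] [Algebra K FL]
  [IsScalarTower K L FL] [IsScalarTower K FK FL]
  {A : ValuationSubring L} {O : ValuationSubring FL}

/-- Powers of a transcendental element are linearly independent. -/
theorem linearIndependent_pow_of_transcendental {x : FK} (hx : Transcendental K x) (D : ℕ) :
    LinearIndependent K (fun a : Fin D => x ^ (a : ℕ)) := by
  rw [Fintype.linearIndependent_iff]
  intro c hc a
  have h1 : aeval x (∑ a : Fin D, C (c a) * X ^ (a : ℕ)) = 0 := by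
    rw [map_sum, ← hc]
    refine Finset.sum_congr rfl fun a _ => ?_
    rw [map_mul, aeval_C, map_pow, aeval_X, Algebra.smul_def]
  have h2 : (∑ a : Fin D, C (c a) * X ^ (a : ℕ)) = 0 := by
    by_contra hne
    exact hx ⟨_, hne, h1⟩
  have h3 := congrArg (fun p : K[X] => p.coeff (a : ℕ)) h2
  simp only [coeff_zero] at h3
  rw [Fermat.Agent.S18.H49.coeff_sum_C_mul_X_pow c (a : ℕ), dif_pos a.2] at h3
  exact h3

namespace ConstFamily

variable (h : ConstFamily K L FK FL A O)
include h

/-- The sup-norm property for families indexed by a finite type. -/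
theorem gauss_fintype {ι : Type*} [Fintype ι] (a : ι → L) (e : ι → FK)
    (he : LinearIndependent K e) :
    (∑ i, algebraMap L FL (a i) * algebraMap FK FL (e i)) ∈ O ↔ ∀ i, a i ∈ A := by
  classical
  let σ := Fintype.equivFin ι
  have h1 := h.gauss (Fintype.card ι) (a ∘ σ.symm) (e ∘ σ.symm)
    (he.comp σ.symm σ.symm.injective)
  have h2 : (∑ i, algebraMap L FL ((a ∘ σ.symm) i) * algebraMap FK FL ((e ∘ σ.symm) i))
      = ∑ i, algebraMap L FL (a i) * algebraMap FK FL (e i) :=
    Equiv.sum_comp σ.symm (fun i => algebraMap L FL (a i) * algebraMap FK FL (e i))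
  rw [h2] at h1
  rw [h1]
  constructor
  · intro h3 i
    have := h3 (σ i)
    simpa using this
  · intro h3 i
    exact h3 _

/-- `O ∩ L = A`. -/
theorem mem_iff (a : L) : algebraMap L FL a ∈ O ↔ a ∈ A := by
  have h1 := h.gauss_fintype (ι := Fin 1) (fun _ => a) (fun _ => (1 : FK))
    (linearIndependent_unique_iff.mpr one_ne_zero)
  simp only [Finset.univ_unique, Finset.sum_singleton, map_one, mul_one] at h1
  rw [h1]
  exact ⟨fun h2 => h2 0, fun h2 _ => h2⟩

/-- Elements of `FK` lie in `O`. -/
theorem coe_mem (e : FK) : algebraMap FK FL e ∈ O := by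
  rcases eq_or_ne e 0 with rfl | he
  · rw [map_zero]; exact O.zero_mem
  have h1 := h.gauss_fintype (ι := Fin 1) (fun _ => (1 : L)) (fun _ => e)
    (linearIndependent_unique_iff.mpr he)
  simp only [Finset.univ_unique, Finset.sum_singleton, map_one, one_mul] at h1
  exact h1.mpr fun _ => A.one_mem

/-- Nonzero elements of `FK` are units of `O`. -/
theorem coe_inv_mem (e : FK) : (algebraMap FK FL e)⁻¹ ∈ O := by
  rw [← map_inv₀]
  exact h.coe_mem e⁻¹

/-- Constants of `K` lie in `A`, with their inverses. -/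
theorem const_inv_mem (c : K) : (algebraMap K L c)⁻¹ ∈ A := by
  rw [← map_inv₀]
  exact h.const_mem c⁻¹

/-- `p(x) ∈ O` for a polynomial `p` with coefficients in `A`; conversely the coefficients of `p`
are in `A` if `p(x) ∈ O`. -/
theorem aeval_mem_iff' {x : FK} (hx : Transcendental K x) (p : L[X]) :
    aeval (algebraMap FK FL x) p ∈ O ↔ ∀ i, p.coeff i ∈ A := by
  have h1 : aeval (algebraMap FK FL x) p
      = ∑ a : Fin (p.natDegree + 1), algebraMap L FL (p.coeff a) * algebraMap FK FL (x ^ (a : ℕ)) := by
    rw [aeval_eq_sum_range' (Nat.lt_succ_self _), Finset.sum_range]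
    refine Finset.sum_congr rfl fun a _ => ?_
    rw [Algebra.smul_def, map_pow]
  rw [h1, h.gauss_fintype _ _ (linearIndependent_pow_of_transcendental hx _)]
  constructor
  · intro h2 i
    by_cases hi : i < p.natDegree + 1
    · exact h2 ⟨i, hi⟩
    · rw [coeff_eq_zero_of_natDegree_lt (by omega)]
      exact A.zero_mem
  · intro h2 i
    exact h2 _

/-- The Gauss property of a nonconstant `x ∈ FK` (field `gauss` of `Setup`). -/
theorem gaussHyp {x : FK} (hx : Transcendental K x) :
    Fermat.Agent.S18.H49.GaussHyp A O (algebraMap FK FL x) := by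
  intro p hp hunit
  have hmem : aeval (algebraMap FK FL x) p ∈ O := (h.aeval_mem_iff' hx p).mpr hp
  refine ⟨hmem, ?_⟩
  by_cases h0 : aeval (algebraMap FK FL x) p = 0
  · rw [h0, inv_zero]; exact O.zero_mem
  obtain ⟨c, hc, hc1, hc2⟩ := h.scale _ h0
  -- `c • p` has coefficients in `A`, so `c ∈ A`
  have h1 : aeval (algebraMap FK FL x) (C c * p) ∈ O := by
    rw [map_mul, aeval_C]; exact hc1
  have h2 := (h.aeval_mem_iff' hx (C c * p)).mp h1
  obtain ⟨i, hi0, hi⟩ := hunit
  have hcA : c ∈ A := by
    have h3 := h2 i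
    rw [coeff_C_mul] at h3
    have : c = c * p.coeff i * (p.coeff i)⁻¹ := by
      rw [mul_assoc, mul_inv_cancel₀ hi0, mul_one]
    rw [this]
    exact A.mul_mem _ _ h3 hi
  have hcF : algebraMap L FL c ≠ 0 := by
    rw [Ne, map_eq_zero]; exact hc
  have h4 : (aeval (algebraMap FK FL x) p)⁻¹
      = algebraMap L FL c * (algebraMap L FL c * aeval (algebraMap FK FL x) p)⁻¹ := by
    rw [mul_inv, ← mul_assoc, mul_inv_cancel₀ hcF, one_mul]
  rw [h4]
  exact O.mul_mem _ _ ((h.mem_iff c).mpr hcA) hc2

end ConstFamily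

end Fermat.Agent.S42.H74
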