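/-
S42 / Program A, DESC route (report #1867), leaf (SETUP) (helper74): the base change of the
finite extension `FK / K(x)` — the ring homomorphism `K(x) → L(x)`, `FL = L(x)(y)`,
`FL / L(x)` is finite of degree `≤ [FK : K(x)]`.
-/
import Fermat.Agent.S42.H74.ConstBasic

set_option autoImplicit false

open IntermediateField Polynomial

noncomputable section

namespace Fermat.Agent.S42.H74

variable {K L FK FL : Type*} [Field K] [Field L] [Field FK] [Field FL]
  [Algebra K L] [Algebra K FK] [Algebra L FL] [Algebra FK FL] [Algebra K FL]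
  [IsScalarTower K L FL] [IsScalarTower K FK FL]

section Phi

variable (L FL) (x : FK)

/-- `p(x) ↦ p(x)`: polynomials in `x` over `K` land in `L(x)`. -/
theorem coe_aeval_mem_adjoin (r : K[X]) :
    algebraMap FK FL (aeval x r) ∈ L⟮algebraMap FK FL x⟯ := by
  rw [← aeval_algebraMap_apply, ← aeval_map_algebraMap L, aeval_eq_sum_range]
  exact sum_mem fun k _ => (L⟮algebraMap FK FL x⟯).smul_mem
    (pow_mem (IntermediateField.mem_adjoin_simple_self L _) k)

/-- `K(x)` lands in `L(x)`. -/
theorem coe_mem_adjoin (z : K⟮x⟯) : algebraMap FK FL (z : FK) ∈ L⟮algebraMap FK FL x⟯ := by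
  obtain ⟨r, s, hrs⟩ := (IntermediateField.mem_adjoin_simple_iff K (z : FK)).mp z.2
  rw [hrs, map_div₀]
  exact div_mem (coe_aeval_mem_adjoin L FL x r) (coe_aeval_mem_adjoin L FL x s)

/-- The ring homomorphism `K(x) → L(x)`. -/
def phi : K⟮x⟯ →+* L⟮algebraMap FK FL x⟯ :=
  ((algebraMap FK FL).comp (algebraMap K⟮x⟯ FK)).codRestrict (L⟮algebraMap FK FL x⟯)
    (coe_mem_adjoin L FL x)

@[simp]
theorem coe_phi (z : K⟮x⟯) : ((phi L FL x z : L⟮algebraMap FK FL x⟯) : FL) = algebraMap FK FL (z : FK) :=
  rfl

theorem algebraMap_comp_phi :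
    (algebraMap L⟮algebraMap FK FL x⟯ FL).comp (phi L FL x)
      = (algebraMap FK FL).comp (algebraMap K⟮x⟯ FK) := by
  ext z
  rfl

/-- Base change of polynomial relations. -/
theorem aeval_map_phi (q : Polynomial K⟮x⟯) (y : FK) :
    aeval (algebraMap FK FL y) (q.map (phi L FL x)) = algebraMap FK FL (aeval y q) := by
  rw [aeval_def, eval₂_map, algebraMap_comp_phi, aeval_def, hom_eval₂]

end Phi

variable {A : ValuationSubring L} {O : ValuationSubring FL}

/-- `FL = L(x)(y)` if `FK = K(x, y)`. -/
theorem adjoin_eq_top (h : ConstFamily K L FK FL A O) (x y : FK)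
    (hxy : IntermediateField.adjoin K {x, y} = ⊤) :
    (L⟮algebraMap FK FL x⟯)⟮algebraMap FK FL y⟯ = ⊤ := by
  set E : IntermediateField L⟮algebraMap FK FL x⟯ FL := (L⟮algebraMap FK FL x⟯)⟮algebraMap FK FL y⟯
    with hE
  have hL : ∀ c : L, algebraMap L FL c ∈ E := fun c =>
    E.algebraMap_mem (algebraMap L L⟮algebraMap FK FL x⟯ c)
  have hxE : algebraMap FK FL x ∈ E :=
    E.algebraMap_mem (AdjoinSimple.gen L (algebraMap FK FL x))
  have hyE : algebraMap FK FL y ∈ E := IntermediateField.mem_adjoin_simple_self _ _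
  have hall : ∀ f : FK, algebraMap FK FL f ∈ E := by
    intro f
    have hf : f ∈ IntermediateField.adjoin K {x, y} := by rw [hxy]; exact IntermediateField.mem_top
    induction hf using IntermediateField.adjoin_induction with
    | mem f hf =>
      rcases hf with rfl | rfl
      · exact hxE
      · exact hyE
    | algebraMap c =>
      rw [← IsScalarTower.algebraMap_apply K FK FL, IsScalarTower.algebraMap_apply K L FL]
      exact hL _
    | add f g _ _ hf hg => rw [map_add]; exact add_mem hf hg
    | inv f _ hf => rw [map_inv₀]; exact inv_mem hf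
    | mul f g _ _ hf hg => rw [map_mul]; exact mul_mem hf hg
  rw [← IntermediateField.restrictScalars_eq_top_iff (K := L), eq_top_iff, ← h.gen,
    IntermediateField.adjoin_le_iff]
  rintro _ ⟨f, rfl⟩
  exact hall f

/-- `y` is integral over `L(x)`, `FL / L(x)` is finite and `[FL : L(x)] ≤ deg m`. -/
theorem finite_and_finrank_le (h : ConstFamily K L FK FL A O) (x y : FK)
    (hxy : IntermediateField.adjoin K {x, y} = ⊤) (m : Polynomial K⟮x⟯) (hm : m.Monic)
    (hmy : aeval y m = 0) :
    FiniteDimensional L⟮algebraMap FK FL x⟯ FL ∧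
      Module.finrank L⟮algebraMap FK FL x⟯ FL ≤ m.natDegree := by
  have hmL : (m.map (phi L FL x)).Monic := hm.map _
  have hroot : aeval (algebraMap FK FL y) (m.map (phi L FL x)) = 0 := by
    rw [aeval_map_phi, hmy, map_zero]
  have hint : IsIntegral L⟮algebraMap FK FL x⟯ (algebraMap FK FL y) := ⟨_, hmL, hroot⟩
  have htop := adjoin_eq_top h x y hxy
  have hfin : FiniteDimensional L⟮algebraMap FK FL x⟯
      ((L⟮algebraMap FK FL x⟯)⟮algebraMap FK FL y⟯) :=
    IntermediateField.adjoin.finiteDimensional hint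
  have hfr := IntermediateField.adjoin.finrank hint
  rw [htop] at hfin hfr
  rw [IntermediateField.finrank_top'] at hfr
  refine ⟨Module.Finite.equiv (IntermediateField.topEquiv
    (F := L⟮algebraMap FK FL x⟯) (E := FL)).toLinearEquiv, ?_⟩
  rw [hfr]
  calc (minpoly L⟮algebraMap FK FL x⟯ (algebraMap FK FL y)).natDegree
      ≤ (m.map (phi L FL x)).natDegree :=
        natDegree_le_natDegree (minpoly.min _ _ hmL hroot)
    _ = m.natDegree := hm.natDegree_map _

end Fermat.Agent.S42.H74
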