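/-
S42 / Program A, DESC route (report #1867), leaf (SETUP) (helper74): the field `basis` of
`Setup` for the constant family — a `K(x)`-basis of `FK` is an orthonormal `L(x)`-basis of `FL`
with unit Gram determinant.
-/
import Fermat.Agent.S42.H74.ConstFinite

set_option autoImplicit false

open IntermediateField Polynomial

noncomputable section

namespace Fermat.Agent.S42.H74

variable {K L FK FL : Type*} [Field K] [Field L] [Field FK] [Field FL]
  [Algebra K L] [Algebra K FK] [Algebra L FL] [Algebra FK FL] [Algebra K FL]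
  [IsScalarTower K L FL] [IsScalarTower K FK FL]
  {A : ValuationSubring L} {O : ValuationSubring FL}

/-- `x ^ a * b k` is a `K`-linearly independent family if `b` is `K(x)`-independent and `x` is
transcendental. -/
theorem linearIndependent_pow_mul {x : FK} (hx : Transcendental K x) {μ : ℕ} (b : Fin μ → FK)
    (hb : LinearIndependent K⟮x⟯ b) (D : ℕ) :
    LinearIndependent K (fun ka : Fin μ × Fin D => x ^ (ka.2 : ℕ) * b ka.1) := by
  rw [Fintype.linearIndependent_iff]
  intro c hc ka
  have h1 : ∑ k, (∑ a : Fin D, c (k, a) • (AdjoinSimple.gen K x) ^ (a : ℕ) : K⟮x⟯) • b k = 0 := by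
    rw [← hc, Fintype.sum_prod_type]
    refine Finset.sum_congr rfl fun k _ => ?_
    rw [Finset.sum_smul]
    refine Finset.sum_congr rfl fun a _ => ?_
    rw [Algebra.smul_def, Algebra.smul_def, Algebra.smul_def, IntermediateField.algebraMap_apply]
    push_cast
    rw [AdjoinSimple.coe_gen]
    ring
  have h2 := (Fintype.linearIndependent_iff.mp hb) _ h1 ka.1
  have h3 : ∑ a : Fin D, c (ka.1, a) • x ^ (a : ℕ) = 0 := by
    have := congrArg (fun z : K⟮x⟯ => (z : FK)) h2
    simp only [ZeroMemClass.coe_zero] at this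
    rw [← this]
    push_cast
    refine Finset.sum_congr rfl fun a _ => ?_
    rw [AdjoinSimple.coe_gen]
  exact (Fintype.linearIndependent_iff.mp (linearIndependent_pow_of_transcendental hx D))
    (fun a => c (ka.1, a)) h3 ka.2

/-- Finitely many elements of `L(x)` have polynomial numerators over a common primitive
denominator. -/
theorem exists_primitive_denominator (t : FL) {μ : ℕ} (r : Fin μ → L⟮t⟯) :
    ∃ (R : Fin μ → L[X]) (Q : L[X]), (∀ i, Q.coeff i ∈ A) ∧ (∃ i, Q.coeff i = 1) ∧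
      ∀ k, (r k : FL) * aeval t Q = aeval t (R k) := by
  classical
  have hrep : ∀ k, ∃ pq : L[X] × L[X], aeval t pq.2 ≠ 0 ∧
      (r k : FL) * aeval t pq.2 = aeval t pq.1 := by
    intro k
    obtain ⟨p, q, hpq⟩ := (IntermediateField.mem_adjoin_simple_iff L (r k : FL)).mp (r k).2
    by_cases hq : aeval t q = 0
    · refine ⟨(0, 1), by simp, ?_⟩
      rw [hpq, hq, div_zero]
      simp
    · exact ⟨(p, q), hq, by rw [hpq, div_mul_cancel₀ _ hq]⟩
  choose pq hq hpq using hrep
  have hQx : aeval t (∏ k, (pq k).2) ≠ 0 := by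
    rw [map_prod]
    exact Finset.prod_ne_zero_iff.mpr fun k _ => hq k
  have hQ0 : (∏ k, (pq k).2) ≠ 0 := fun h => hQx (by rw [h, map_zero])
  obtain ⟨c₀, Q', hc₀, hQQ', hQ'A, hQ'1, -⟩ :=
    Fermat.Agent.S18.H49.exists_primitive_factor (A := A) hQ0
  refine ⟨fun k => C c₀⁻¹ * ((pq k).1 * ∏ j ∈ Finset.univ.erase k, (pq j).2), Q', hQ'A, hQ'1,
    fun k => ?_⟩
  have h1 : (r k : FL) * aeval t (∏ j, (pq j).2)
      = aeval t ((pq k).1 * ∏ j ∈ Finset.univ.erase k, (pq j).2) := by
    rw [← Finset.mul_prod_erase Finset.univ (fun j => (pq j).2) (Finset.mem_univ k),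
      map_mul, ← mul_assoc, hpq k, map_mul]
  have h2 : aeval t (∏ j, (pq j).2) = algebraMap L FL c₀ * aeval t Q' := by
    rw [hQQ', map_mul, aeval_C]
  have hc₀F : algebraMap L FL c₀ ≠ 0 := by
    rw [Ne, map_eq_zero]; exact hc₀
  rw [map_mul, aeval_C, ← h1, h2, map_inv₀]
  field_simp

/-- A `K(x)`-basis of `FK` is orthonormal over `(L(x), Gauss)`. -/
theorem orthonormal_const (hA : A ≠ ⊤) (h : ConstFamily K L FK FL A O) {x : FK}
    (hx : Transcendental K x) {μ : ℕ} (b : Fin μ → FK) (hb : LinearIndependent K⟮x⟯ b)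
    (r : Fin μ → L⟮algebraMap FK FL x⟯) :
    (∑ k, (r k : FL) * algebraMap FK FL (b k)) ∈ O ↔ ∀ k, (r k : FL) ∈ O := by
  classical
  obtain ⟨R, Q, hQA, hQ1, hRQ⟩ := exists_primitive_denominator (A := A) (algebraMap FK FL x) r
  have hgauss := h.gaussHyp hx
  have hunit : ∃ i, Q.coeff i ≠ 0 ∧ (Q.coeff i)⁻¹ ∈ A := by
    obtain ⟨i, hi⟩ := hQ1
    exact ⟨i, by rw [hi]; exact one_ne_zero, by rw [hi, inv_one]; exact A.one_mem⟩
  obtain ⟨hu, huinv⟩ := hgauss Q hQA hunit
  have hune : aeval (algebraMap FK FL x) Q ≠ 0 :=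
    Fermat.Agent.S18.H49.aeval_ne_zero_of_primitive hA h.mem_iff hgauss hQA hQ1
  set u := aeval (algebraMap FK FL x) Q with hudef
  -- multiplication by the unit `u`
  have hmul : ∀ f : FL, f ∈ O ↔ f * u ∈ O := by
    intro f
    constructor
    · intro hf; exact O.mul_mem _ _ hf hu
    · intro hf
      have := O.mul_mem _ _ hf huinv
      rwa [mul_assoc, mul_inv_cancel₀ hune, mul_one] at this
  -- a common degree bound
  obtain ⟨D, hdeg⟩ : ∃ D : ℕ, ∀ k, (R k).natDegree < D :=
    ⟨(Finset.univ.sup fun k : Fin μ => (R k).natDegree) + 1, fun k => Nat.lt_succ_of_le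
      (Finset.le_sup (f := fun k : Fin μ => (R k).natDegree) (Finset.mem_univ k))⟩
  have hexp : ∀ k, aeval (algebraMap FK FL x) (R k)
      = ∑ a : Fin D, algebraMap L FL ((R k).coeff a) * algebraMap FK FL (x ^ (a : ℕ)) := by
    intro k
    rw [aeval_eq_sum_range' (hdeg k), Finset.sum_range]
    refine Finset.sum_congr rfl fun a _ => ?_
    rw [Algebra.smul_def, map_pow]
  have hsum : (∑ k, (r k : FL) * algebraMap FK FL (b k)) * u
      = ∑ ka : Fin μ × Fin D, algebraMap L FL ((R ka.1).coeff ka.2)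
          * algebraMap FK FL (x ^ (ka.2 : ℕ) * b ka.1) := by
    rw [Finset.sum_mul, Fintype.sum_prod_type]
    refine Finset.sum_congr rfl fun k _ => ?_
    rw [mul_right_comm, hRQ k, hexp k, Finset.sum_mul]
    refine Finset.sum_congr rfl fun a _ => ?_
    rw [map_mul]
    ring
  have hcoeff : (∀ ka : Fin μ × Fin D, (R ka.1).coeff ka.2 ∈ A) ↔ ∀ k i, (R k).coeff i ∈ A := by
    constructor
    · intro h1 k i
      by_cases hi : i < D
      · exact h1 (k, ⟨i, hi⟩)
      · rw [coeff_eq_zero_of_natDegree_lt (lt_of_lt_of_le (hdeg k) (not_lt.mp hi))]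
        exact A.zero_mem
    · intro h1 ka
      exact h1 _ _
  rw [hmul, hsum, h.gauss_fintype _ _ (linearIndependent_pow_mul hx b hb D), hcoeff]
  refine forall_congr' fun k => ?_
  rw [hmul, hRQ k, h.aeval_mem_iff' hx]

end Fermat.Agent.S42.H74
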