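/-
S42 / Program A, DESC route (report #1867), leaf (SETUP) (helper74): the FIELD-THEORETIC DATA of
a finite extension `FK / K(x)` in characteristic zero — a primitive element `y`, its minimal
polynomial `m` over `K(x)`, a Bézout cofactor `bq` of the derivative (`bq(y) · m'(y) = 1`), and a
common polynomial denominator `d(x)` of all the coefficients.  Mathlib only.
-/
import Mathlib

set_option autoImplicit false

open IntermediateField Polynomial

noncomputable section

namespace Fermat.Agent.S42.H74

variable {K FK : Type*} [Field K] [Field FK] [Algebra K FK]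

/-- Finitely many elements of `K(x)` have a common polynomial denominator. -/
theorem exists_common_denominator (x : FK) (Z : Finset K⟮x⟯) :
    ∃ d : K[X], aeval x d ≠ 0 ∧ ∀ z ∈ Z, ∃ p : K[X], (z : FK) * aeval x d = aeval x p := by
  classical
  induction Z using Finset.induction_on with
  | empty => exact ⟨1, by simp, fun z hz => absurd hz (Finset.notMem_empty z)⟩
  | insert z Z _ ih =>
    obtain ⟨d, hd, hdZ⟩ := ih
    obtain ⟨r, s, hrs⟩ := (IntermediateField.mem_adjoin_simple_iff K (z : FK)).mp z.2
    by_cases hs : aeval x s = 0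
    · refine ⟨d, hd, fun z' hz' => ?_⟩
      rcases Finset.mem_insert.mp hz' with rfl | hz'
      · exact ⟨0, by rw [hrs, hs, div_zero, zero_mul, map_zero]⟩
      · exact hdZ z' hz'
    · refine ⟨d * s, by rw [map_mul]; exact mul_ne_zero hd hs, fun z' hz' => ?_⟩
      rcases Finset.mem_insert.mp hz' with rfl | hz'
      · refine ⟨r * d, ?_⟩
        rw [hrs, map_mul, map_mul]
        field_simp
      · obtain ⟨p, hp⟩ := hdZ z' hz'
        refine ⟨p * s, ?_⟩
        rw [map_mul, map_mul, ← mul_assoc, hp]

/-- The data of a finite extension `FK / K(x)` in characteristic zero. -/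
theorem exists_rel [CharZero K] (x : FK) [FiniteDimensional K⟮x⟯ FK] :
    ∃ (y : FK) (m bq : Polynomial K⟮x⟯) (d : K[X]),
      aeval x d ≠ 0 ∧ m.Monic ∧ aeval y m = 0 ∧ m.natDegree = Module.finrank K⟮x⟯ FK ∧
      aeval y bq * aeval y (derivative m) = 1 ∧
      IntermediateField.adjoin K {x, y} = ⊤ ∧
      (∀ k, ∃ p : K[X], ((m.coeff k : K⟮x⟯) : FK) * aeval x d = aeval x p) ∧
      (∀ k, ∃ p : K[X], ((bq.coeff k : K⟮x⟯) : FK) * aeval x d = aeval x p) := by
  classical
  haveI : CharZero K⟮x⟯ := charZero_of_injective_algebraMap (algebraMap K K⟮x⟯).injective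
  obtain ⟨y, hy⟩ := Field.exists_primitive_element K⟮x⟯ FK
  have hint : IsIntegral K⟮x⟯ y := Algebra.IsIntegral.isIntegral y
  have hsep : (minpoly K⟮x⟯ y).Separable := Algebra.IsSeparable.isSeparable K⟮x⟯ y
  obtain ⟨a, b, hab⟩ := hsep
  obtain ⟨d, hd, hdZ⟩ := exists_common_denominator x
    ((minpoly K⟮x⟯ y).support.image (minpoly K⟮x⟯ y).coeff ∪ b.support.image b.coeff)
  have hcoeff : ∀ q : Polynomial K⟮x⟯, (∀ k ∈ q.support, ∃ p : K[X],
      ((q.coeff k : K⟮x⟯) : FK) * aeval x d = aeval x p) →
      ∀ k, ∃ p : K[X], ((q.coeff k : K⟮x⟯) : FK) * aeval x d = aeval x p := by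
    intro q hq k
    by_cases hk : k ∈ q.support
    · exact hq k hk
    · refine ⟨0, ?_⟩
      rw [Polynomial.notMem_support_iff.mp hk]
      simp
  refine ⟨y, minpoly K⟮x⟯ y, b, d, hd, minpoly.monic hint, minpoly.aeval _ _, ?_, ?_, ?_, ?_, ?_⟩
  · rw [← IntermediateField.adjoin.finrank hint, hy, IntermediateField.finrank_top']
  · have h1 := congrArg (aeval y) hab
    rw [map_add, map_mul, map_mul, minpoly.aeval, mul_zero, zero_add, map_one] at h1
    exact h1
  · rw [← IntermediateField.adjoin_simple_adjoin_simple, hy]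
    rfl
  · exact hcoeff _ fun k hk => hdZ _ (Finset.mem_union_left _ (Finset.mem_image_of_mem _ hk))
  · exact hcoeff _ fun k hk => hdZ _ (Finset.mem_union_right _ (Finset.mem_image_of_mem _ hk))

end Fermat.Agent.S42.H74
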