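/-
S42 / Program A, DESC route (report #1867), leaf (SETUP) (helper74): an abstract UNRAMIFIEDNESS
criterion for a place `P` of degree one of a function field `F / L`.

`B` an `L`-subalgebra of `F` contained in the valuation ring of `P`, with fraction field `F`;
`t` vanishing at `P`.  If every `b ∈ B` is congruent to its value `b(P)` modulo `t`, up to a
denominator in `B` not vanishing at `P` (`IsTame`), then `t` is a uniformizer at `P`
(`ord_eq_one_of_isTame`).

`IsTame` is checked on algebra generators (`isTame_adjoin`), and holds for a simple root of a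
polynomial with tame coefficients (`isTame_root`: Hensel's lemma without completion).
-/
import Fermat.Agent.S18.H29.Eval
import Fermat.Agent.S24.Ord
import Fermat.Agent.S24.Residue

set_option autoImplicit false

open AlgebraicCurve Polynomial

noncomputable section

namespace Fermat.Agent.S42.H74

open Fermat.Agent.S18.H29

variable {L F : Type*} [Field L] [Field F] [Algebra L F]
variable (P : Place L F) (hdeg : P.deg = 1)

/-! ### Evaluation helpers -/

theorem mem_of_ord_pos {f : F} (h : 0 < P.ord f) : f ∈ P.toValuationSubring :=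
  mem_of_ord_nonneg P h.le

theorem ev_eq_zero_of_ord_pos {f : F} (h : 0 < P.ord f) : ev P hdeg f = 0 :=
  (ev_eq_zero_iff hdeg (mem_of_ord_pos P h)).mpr (Or.inr h)

theorem ne_zero_and_ord_eq_zero {s : F} (hs : s ∈ P.toValuationSubring)
    (h : ev P hdeg s ≠ 0) : s ≠ 0 ∧ P.ord s = 0 := by
  have h1 : ¬ (s = 0 ∨ 0 < P.ord s) := fun h' => h ((ev_eq_zero_iff hdeg hs).mpr h')
  push Not at h1
  have h2 := Fermat.Agent.S24.H52.ord_nonneg_of_mem P hs
  exact ⟨h1.1, by have := h1.2; omega⟩

theorem ev_zero' : ev P hdeg (0 : F) = 0 := by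
  have := ev_const (P := P) hdeg (0 : L)
  rwa [map_zero] at this

theorem ev_finset_sum {ι : Type*} (s : Finset ι) (f : ι → F)
    (hf : ∀ i ∈ s, f i ∈ P.toValuationSubring) :
    ev P hdeg (∑ i ∈ s, f i) = ∑ i ∈ s, ev P hdeg (f i) := by
  classical
  induction s using Finset.induction_on with
  | empty => simpa using ev_zero' P hdeg
  | insert a s ha ih =>
    rw [Finset.sum_insert ha, Finset.sum_insert ha,
      ev_add hdeg (hf a (Finset.mem_insert_self a s))
        (sum_mem fun i hi => hf i (Finset.mem_insert_of_mem hi)),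
      ih fun i hi => hf i (Finset.mem_insert_of_mem hi)]

theorem ev_natCast (k : ℕ) : (k : F) ∈ P.toValuationSubring ∧ ev P hdeg (k : F) = (k : L) := by
  have hk : (k : F) = algebraMap L F (k : L) := (map_natCast (algebraMap L F) k).symm
  rw [hk]
  exact ⟨P.algebraMap_mem' _, ev_const hdeg _⟩

theorem ev_aeval {y : F} (hy : y ∈ P.toValuationSubring) (q : L[X]) :
    ev P hdeg (aeval y q) = q.eval (ev P hdeg y) := by
  rw [aeval_eq_sum_range, ev_finset_sum P hdeg _ _ (fun k _ => by
    rw [Algebra.smul_def]; exact mul_mem (P.algebraMap_mem' _) (pow_mem hy k)), eval_eq_sum_range]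
  refine Finset.sum_congr rfl fun k _ => ?_
  rw [Algebra.smul_def, ev_const_mul hdeg _ (pow_mem hy k), ev_pow hdeg hy]

/-! ### Tameness -/

/-- `b` is congruent to its value at `P` modulo `t`, up to a denominator in `M`. -/
def IsTame (B : Subalgebra L F) (M : Submonoid F) (t b : F) : Prop :=
  ∃ s ∈ M, ∃ b₁ ∈ B, s * (b - algebraMap L F (ev P hdeg b)) = t * b₁

/-- The elements of `B` not vanishing at `P`. -/
def unitMonoid (B : Subalgebra L F) (hB : ∀ b ∈ B, b ∈ P.toValuationSubring) : Submonoid F where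
  carrier := {s | s ∈ B ∧ ev P hdeg s ≠ 0}
  one_mem' := ⟨B.one_mem, by rw [ev_one hdeg]; exact one_ne_zero⟩
  mul_mem' := fun {a b} ha hb => ⟨B.mul_mem ha.1 hb.1, by
    rw [ev_mul hdeg (hB _ ha.1) (hB _ hb.1)]; exact mul_ne_zero ha.2 hb.2⟩

theorem mem_unitMonoid (B : Subalgebra L F) (hB : ∀ b ∈ B, b ∈ P.toValuationSubring) {s : F} :
    s ∈ unitMonoid P hdeg B hB ↔ s ∈ B ∧ ev P hdeg s ≠ 0 := Iff.rfl

theorem IsTame.mono {B : Subalgebra L F} {M M' : Submonoid F} (hM : M ≤ M') {t b : F}
    (h : IsTame P hdeg B M t b) : IsTame P hdeg B M' t b := by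
  obtain ⟨s, hs, b₁, hb₁, hrel⟩ := h
  exact ⟨s, hM hs, b₁, hb₁, hrel⟩

/-- Tameness is inherited by the subalgebra generated by tame elements. -/
theorem isTame_adjoin (B : Subalgebra L F) (hB : ∀ b ∈ B, b ∈ P.toValuationSubring)
    (M : Submonoid F) (hM : ∀ s ∈ M, s ∈ B) (t : F) (G : Set F) (hG : ∀ g ∈ G, g ∈ B)
    (hgen : ∀ g ∈ G, IsTame P hdeg B M t g) :
    ∀ b ∈ Algebra.adjoin L G, IsTame P hdeg B M t b := by
  have hle : Algebra.adjoin L G ≤ B := Algebra.adjoin_le fun g hg => hG g hg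
  intro b hb
  induction hb using Algebra.adjoin_induction with
  | mem g hg => exact hgen g hg
  | algebraMap r =>
    exact ⟨1, M.one_mem, 0, B.zero_mem, by rw [ev_const hdeg, sub_self, mul_zero, mul_zero]⟩
  | add x y hx hy ihx ihy =>
    obtain ⟨sx, hsx, bx, hbx, hx_rel⟩ := ihx
    obtain ⟨sy, hsy, by', hby, hy_rel⟩ := ihy
    have hxO := hB x (hle hx)
    have hyO := hB y (hle hy)
    refine ⟨sx * sy, M.mul_mem hsx hsy, sy * bx + sx * by',
      B.add_mem (B.mul_mem (hM _ hsy) hbx) (B.mul_mem (hM _ hsx) hby), ?_⟩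
    rw [ev_add hdeg hxO hyO, map_add]
    linear_combination sy * hx_rel + sx * hy_rel
  | mul x y hx hy ihx ihy =>
    obtain ⟨sx, hsx, bx, hbx, hx_rel⟩ := ihx
    obtain ⟨sy, hsy, by', hby, hy_rel⟩ := ihy
    have hxO := hB x (hle hx)
    have hyO := hB y (hle hy)
    refine ⟨sx * sy, M.mul_mem hsx hsy,
      sy * y * bx + sx * algebraMap L F (ev P hdeg x) * by', ?_, ?_⟩
    · exact B.add_mem (B.mul_mem (B.mul_mem (hM _ hsy) (hle hy)) hbx)
        (B.mul_mem (B.mul_mem (hM _ hsx) (B.algebraMap_mem _)) hby)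
    · rw [ev_mul hdeg hxO hyO, map_mul]
      linear_combination (sy * y) * hx_rel + (sx * algebraMap L F (ev P hdeg x)) * hy_rel

/-- **Hensel without completion**: a root `y ∈ B` of a polynomial whose coefficients are
congruent to constants modulo `t`, simple at `P`, is tame. -/
theorem isTame_root (B : Subalgebra L F) (hB : ∀ b ∈ B, b ∈ P.toValuationSubring) (t : F)
    (ht : 0 < P.ord t) (q : Polynomial F) (hqB : ∀ k, q.coeff k ∈ B)
    (hq : ∀ k, ∃ β ∈ B, q.coeff k - algebraMap L F (ev P hdeg (q.coeff k)) = t * β)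
    (y : F) (hy : y ∈ B) (hroot : q.eval y = 0) (hder : ev P hdeg (q.derivative.eval y) ≠ 0) :
    IsTame P hdeg B (unitMonoid P hdeg B hB) t y := by
  classical
  have hyO := hB y hy
  have htO := mem_of_ord_pos P ht
  choose β hβB hβ using hq
  set N := q.natDegree + 1 with hN
  set g : L[X] := ∑ k ∈ Finset.range N, C (ev P hdeg (q.coeff k)) * X ^ k with hg
  have h1 : aeval y g = ∑ k ∈ Finset.range N, algebraMap L F (ev P hdeg (q.coeff k)) * y ^ k := by
    rw [hg, map_sum]
    refine Finset.sum_congr rfl fun k _ => ?_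
    rw [map_mul, aeval_C, map_pow, aeval_X]
  have h2 : q.eval y = ∑ k ∈ Finset.range N, q.coeff k * y ^ k :=
    eval_eq_sum_range' (Nat.lt_succ_self _) y
  set hh : F := ∑ k ∈ Finset.range N, β k * y ^ k with hhh
  have hhB : hh ∈ B := B.sum_mem fun k _ => B.mul_mem (hβB k) (B.pow_mem hy k)
  have h3 : aeval y g = t * (-hh) := by
    have h30 : aeval y g = aeval y g - q.eval y := by rw [hroot, sub_zero]
    rw [h30, h1, h2, ← Finset.sum_sub_distrib, hhh, mul_neg, Finset.mul_sum,
      ← Finset.sum_neg_distrib]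
    refine Finset.sum_congr rfl fun k _ => ?_
    have := hβ k
    linear_combination (-(y ^ k)) * this
  have h4 : g.eval (ev P hdeg y) = 0 := by
    rw [← ev_aeval P hdeg hyO, h3, ev_mul hdeg htO (hB _ (B.neg_mem hhB)),
      ev_eq_zero_of_ord_pos P hdeg ht, zero_mul]
  have h5 : (X - C (ev P hdeg y)) * (g /ₘ (X - C (ev P hdeg y))) = g :=
    mul_divByMonic_eq_iff_isRoot.mpr h4
  have h6 : aeval y g = (y - algebraMap L F (ev P hdeg y)) * aeval y (g /ₘ (X - C (ev P hdeg y))) := by
    conv_lhs => rw [← h5]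
    rw [map_mul, map_sub, aeval_X, aeval_C]
  have hsB : aeval y (g /ₘ (X - C (ev P hdeg y))) ∈ B := by
    rw [aeval_eq_sum_range]
    exact B.sum_mem fun k _ => B.smul_mem (B.pow_mem hy k) _
  have h7 : ev P hdeg (aeval y (g /ₘ (X - C (ev P hdeg y)))) = g.derivative.eval (ev P hdeg y) := by
    rw [ev_aeval P hdeg hyO]
    conv_rhs => rw [← h5]
    rw [derivative_mul, derivative_sub, derivative_X, derivative_C, sub_zero, one_mul, eval_add,
      eval_mul, eval_sub, eval_X, eval_C, sub_self, zero_mul, add_zero]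
  have h8 : g.derivative.eval (ev P hdeg y) = ev P hdeg (q.derivative.eval y) := by
    have e1 : g.derivative.eval (ev P hdeg y)
        = ∑ k ∈ Finset.range N, ev P hdeg (q.coeff k) * ((k : L) * ev P hdeg y ^ (k - 1)) := by
      rw [hg, derivative_sum, eval_finsetSum]
      refine Finset.sum_congr rfl fun k _ => ?_
      rw [derivative_C_mul, derivative_X_pow, eval_mul, eval_C, eval_mul, eval_pow, eval_X,
        eval_C]
    have e2 : q.derivative.eval y = ∑ k ∈ Finset.range N, q.coeff k * (k : F) * y ^ (k - 1) := by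
      rw [derivative_eval, sum_over_range' _ (fun n => by simp) N (Nat.lt_succ_self _)]
    have hmem : ∀ k, q.coeff k * (k : F) * y ^ (k - 1) ∈ P.toValuationSubring := fun k =>
      mul_mem (mul_mem (hB _ (hqB k)) (ev_natCast P hdeg k).1) (pow_mem hyO _)
    rw [e1, e2, ev_finset_sum P hdeg _ _ (fun k _ => hmem k)]
    refine Finset.sum_congr rfl fun k _ => ?_
    rw [ev_mul hdeg (mul_mem (hB _ (hqB k)) (ev_natCast P hdeg k).1) (pow_mem hyO _),
      ev_mul hdeg (hB _ (hqB k)) (ev_natCast P hdeg k).1, ev_pow hdeg hyO,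
      (ev_natCast P hdeg k).2]
    ring
  refine ⟨aeval y (g /ₘ (X - C (ev P hdeg y))), ⟨hsB, ?_⟩, -hh, B.neg_mem hhB, ?_⟩
  · rw [h7, h8]; exact hder
  · rw [mul_comm, ← h6, h3]

/-- **Unramifiedness criterion**: if all of `B` is tame modulo `t` and `F = Frac B`, then `t` is
a uniformizer at `P`. -/
theorem ord_eq_one_of_isTame (B : Subalgebra L F) (hB : ∀ b ∈ B, b ∈ P.toValuationSubring)
    (t : F) (ht : 0 < P.ord t)
    (htame : ∀ b ∈ B, IsTame P hdeg B (unitMonoid P hdeg B hB) t b)
    (hgen : ∀ f : F, ∃ a ∈ B, ∃ b ∈ B, b ≠ 0 ∧ f * b = a) :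
    P.ord t = 1 := by
  have ht0 : t ≠ 0 := Fermat.Agent.S24.H94.ne_zero_of_ord_pos P ht
  have key : ∀ n : ℕ, ∀ b ∈ B, b ≠ 0 → P.ord b = n → P.ord t ∣ (n : ℤ) := by
    intro n
    induction n using Nat.strong_induction_on with
    | _ n ih =>
      intro b hb hb0 hn
      rcases Nat.eq_zero_or_pos n with rfl | hpos
      · simp
      obtain ⟨s, ⟨hsB, hs0⟩, b₁, hb₁, hrel⟩ := htame b hb
      have hbpos : 0 < P.ord b := by rw [hn]; exact_mod_cast hpos
      rw [ev_eq_zero_of_ord_pos P hdeg hbpos, map_zero, sub_zero] at hrel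
      obtain ⟨hs_ne, hords⟩ := ne_zero_and_ord_eq_zero P hdeg (hB s hsB) hs0
      have hb₁0 : b₁ ≠ 0 := by
        rintro rfl
        rw [mul_zero] at hrel
        exact (mul_ne_zero hs_ne hb0) hrel
      have hord : P.ord b = P.ord t + P.ord b₁ := by
        have := congrArg P.ord hrel
        rw [P.ord_mul hs_ne hb0, P.ord_mul ht0 hb₁0, hords, zero_add] at this
        exact this
      have hb₁nn := Fermat.Agent.S24.H52.ord_nonneg_of_mem P (hB b₁ hb₁)
      have hlt : (P.ord b₁).toNat < n := by omega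
      have h1 := ih (P.ord b₁).toNat hlt b₁ hb₁ hb₁0 (Int.toNat_of_nonneg hb₁nn).symm
      rw [Int.toNat_of_nonneg hb₁nn] at h1
      rw [← hn, hord]
      exact dvd_add dvd_rfl h1
  obtain ⟨π, hπ⟩ := Fermat.Agent.S24.exists_ord_eq_one P
  obtain ⟨a, ha, b, hb, hb0, hab⟩ := hgen π
  have hπ0 : π ≠ 0 := by
    rintro rfl
    simp at hπ
  have ha0 : a ≠ 0 := by rw [← hab]; exact mul_ne_zero hπ0 hb0
  have hann := Fermat.Agent.S24.H52.ord_nonneg_of_mem P (hB a ha)
  have hbnn := Fermat.Agent.S24.H52.ord_nonneg_of_mem P (hB b hb)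
  have h1 := key _ a ha ha0 (Int.toNat_of_nonneg hann).symm
  have h2 := key _ b hb hb0 (Int.toNat_of_nonneg hbnn).symm
  rw [Int.toNat_of_nonneg hann] at h1
  rw [Int.toNat_of_nonneg hbnn] at h2
  have h3 : P.ord a = 1 + P.ord b := by rw [← hab, P.ord_mul hπ0 hb0, hπ]
  have h4 : P.ord t ∣ 1 := by
    have := dvd_sub h1 h2
    rwa [h3, add_sub_cancel_right] at this
  exact Int.eq_one_of_dvd_one ht.le h4


/-! ### Further helpers -/

/-- The subalgebra generated by elements regular at `P` consists of elements regular at `P`. -/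
theorem adjoin_le_place (G : Set F) (hG : ∀ g ∈ G, g ∈ P.toValuationSubring) :
    ∀ b ∈ Algebra.adjoin L G, b ∈ P.toValuationSubring := by
  intro b hb
  induction hb using Algebra.adjoin_induction with
  | mem g hg => exact hG g hg
  | algebraMap r => exact P.algebraMap_mem' r
  | add x y _ _ ihx ihy => exact add_mem ihx ihy
  | mul x y _ _ ihx ihy => exact mul_mem ihx ihy

/-- Polynomials in an element of a subalgebra. -/
theorem aeval_mem_subalgebra (B : Subalgebra L F) {y : F} (hy : y ∈ B) (q : L[X]) :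
    aeval y q ∈ B := by
  rw [aeval_eq_sum_range]
  exact B.sum_mem fun k _ => B.smul_mem (B.pow_mem hy k) _

/-- Values of a polynomial over `F` with coefficients in a subalgebra. -/
theorem eval_mem_subalgebra (B : Subalgebra L F) (q : F[X]) (hq : ∀ k, q.coeff k ∈ B) {y : F}
    (hy : y ∈ B) : q.eval y ∈ B := by
  rw [eval_eq_sum_range]
  exact B.sum_mem fun k _ => B.mul_mem (hq k) (B.pow_mem hy k)

/-- A root of a monic polynomial with coefficients regular at `P` is regular at `P`. -/
theorem mem_of_monic_root (q : F[X]) (hmon : q.Monic) (hq : ∀ k, q.coeff k ∈ P.toValuationSubring)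
    {y : F} (hroot : q.eval y = 0) : y ∈ P.toValuationSubring := by
  by_contra hy
  have hy0 : y ≠ 0 := fun h => hy (h ▸ zero_mem _)
  have hyord : P.ord y < 0 := by
    have := (Fermat.Agent.S24.H52.mem_iff_ord_nonneg P hy0).not.mp hy
    omega
  have h2 := eval_eq_sum_range (p := q) y
  rw [hroot] at h2
  have h3 := Fermat.Agent.S24.ord_sum_of_unique_min P (Finset.range (q.natDegree + 1))
    (fun k => q.coeff k * y ^ k) (i₀ := q.natDegree) (Finset.self_mem_range_succ _)
    (by rw [hmon.coeff_natDegree, one_mul]; exact pow_ne_zero _ hy0) (fun k hk hkN => ?_)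
  · exact h3.1 h2.symm
  · by_cases hck : q.coeff k = 0
    · left; rw [hck, zero_mul]
    · right
      rw [hmon.coeff_natDegree, one_mul, P.ord_mul hck (pow_ne_zero _ hy0), ord_npow, ord_npow]
      have h4 := Fermat.Agent.S24.H52.ord_nonneg_of_mem P (hq k)
      have hk' : k < q.natDegree :=
        lt_of_le_of_ne (Nat.lt_succ_iff.mp (Finset.mem_range.mp hk)) hkN
      have h5 : (q.natDegree : ℤ) * P.ord y < (k : ℤ) * P.ord y :=
        mul_lt_mul_of_neg_right (by exact_mod_cast hk') hyord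
      omega

end Fermat.Agent.S42.H74
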