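/-
S42 / Program A, DESC route (report #1867), leaf (SETUP) (helper74): UNRAMIFIEDNESS over a point
`c` where a primitive element is a simple root.

`F = L(xF, yF)`, `P` a place of degree one with `xF(P) = c`; `yF` a root of a monic polynomial `q`
over `F` with `r(yF) · q'(yF) = 1`, the coefficients of `q` and `r` being polynomials in `xF`
divided by `D(xF)`, `D(c) ≠ 0`.  Then `xF - c` is a uniformizer at `P`
(`ord_eq_one_of_simple_root`).
-/
import Fermat.Agent.S42.H74.Unif

set_option autoImplicit false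

open AlgebraicCurve Polynomial

noncomputable section

namespace Fermat.Agent.S42.H74

open Fermat.Agent.S18.H29

variable {L F : Type*} [Field L] [Field F] [Algebra L F]
variable (P : Place L F)

theorem aeval_mem_place {y : F} (hy : y ∈ P.toValuationSubring) (q : L[X]) :
    aeval y q ∈ P.toValuationSubring := by
  rw [aeval_eq_sum_range]
  exact sum_mem fun k _ => by
    rw [Algebra.smul_def]; exact mul_mem (P.algebraMap_mem' _) (pow_mem hy k)

theorem ord_eq_one_of_simple_root (hdeg : P.deg = 1) (xF yF : F) (c : L) (hP : 0 < P.ord (xF - algebraMap L F c))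
    (D : L[X]) (hDc : D.eval c ≠ 0) (q r : Polynomial F) (hqmon : q.Monic)
    (hroot : q.eval yF = 0) (hbez : r.eval yF * q.derivative.eval yF = 1)
    (hqc : ∀ k, ∃ p : L[X], q.coeff k * aeval xF D = aeval xF p)
    (hrc : ∀ k, ∃ p : L[X], r.coeff k * aeval xF D = aeval xF p)
    (hgen : IntermediateField.adjoin L {xF, yF} = ⊤) :
    P.ord (xF - algebraMap L F c) = 1 := by
  classical
  have htO : xF - algebraMap L F c ∈ P.toValuationSubring := mem_of_ord_pos P hP
  have hXO : xF ∈ P.toValuationSubring := by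
    have := add_mem htO (P.algebraMap_mem' c)
    rwa [sub_add_cancel] at this
  have hevX : ev P hdeg xF = c := by
    have := ev_eq_zero_of_ord_pos P hdeg hP
    rw [ev_sub hdeg hXO (P.algebraMap_mem' c), ev_const, sub_eq_zero] at this
    exact this
  -- the denominator
  have hDO : aeval xF D ∈ P.toValuationSubring := aeval_mem_place P hXO D
  have hevD : ev P hdeg (aeval xF D) = D.eval c := by rw [ev_aeval P hdeg hXO, hevX]
  obtain ⟨hD0, hordD⟩ := ne_zero_and_ord_eq_zero P hdeg hDO (by rw [hevD]; exact hDc)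
  have hDinvO : (aeval xF D)⁻¹ ∈ P.toValuationSubring :=
    mem_of_ord_nonneg P (by rw [P.ord_inv, hordD, neg_zero])
  have hevDinv : ev P hdeg (aeval xF D)⁻¹ = (D.eval c)⁻¹ := by
    have h1 := ev_mul hdeg hDO hDinvO
    rw [mul_inv_cancel₀ hD0, ev_one hdeg, hevD] at h1
    exact eq_inv_of_mul_eq_one_right h1.symm
  -- coefficients are regular at `P`
  have hcoefO : ∀ z : F, (∃ p : L[X], z * aeval xF D = aeval xF p) → z ∈ P.toValuationSubring := by
    rintro z ⟨p, hp⟩
    have h1 : z = aeval xF p * (aeval xF D)⁻¹ := by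
      rw [← hp, mul_assoc, mul_inv_cancel₀ hD0, mul_one]
    rw [h1]
    exact mul_mem (aeval_mem_place P hXO p) hDinvO
  have hYO : yF ∈ P.toValuationSubring :=
    mem_of_monic_root P q hqmon (fun k => hcoefO _ (hqc k)) hroot
  -- the algebras
  have hGO : ∀ g ∈ ({xF, (aeval xF D)⁻¹, yF} : Set F), g ∈ P.toValuationSubring := by
    intro g hg
    simp only [Set.mem_insert_iff, Set.mem_singleton_iff] at hg
    rcases hg with rfl | rfl | rfl
    · exact hXO
    · exact hDinvO
    · exact hYO
  have hBO : ∀ b ∈ Algebra.adjoin L ({xF, (aeval xF D)⁻¹, yF} : Set F), b ∈ P.toValuationSubring :=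
    adjoin_le_place P _ hGO
  have hXB : xF ∈ Algebra.adjoin L ({xF, (aeval xF D)⁻¹, yF} : Set F) :=
    Algebra.subset_adjoin (by simp)
  have hDinvB : (aeval xF D)⁻¹ ∈ Algebra.adjoin L ({xF, (aeval xF D)⁻¹, yF} : Set F) :=
    Algebra.subset_adjoin (by simp)
  have hYB : yF ∈ Algebra.adjoin L ({xF, (aeval xF D)⁻¹, yF} : Set F) :=
    Algebra.subset_adjoin (by simp)
  -- `xF` and `1 / D(xF)` are strictly tame
  have htX : IsTame P hdeg (Algebra.adjoin L ({xF, (aeval xF D)⁻¹, yF} : Set F)) ⊥
      (xF - algebraMap L F c) xF :=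
    ⟨1, Submonoid.one_mem _, 1, Subalgebra.one_mem _, by rw [hevX, one_mul, mul_one]⟩
  have htD : IsTame P hdeg (Algebra.adjoin L ({xF, (aeval xF D)⁻¹, yF} : Set F)) ⊥
      (xF - algebraMap L F c) (aeval xF D)⁻¹ := by
    have hroot' : (D - C (D.eval c)).IsRoot c := by
      rw [IsRoot.def, eval_sub, eval_C, sub_self]
    have h1 : (X - C c) * ((D - C (D.eval c)) /ₘ (X - C c)) = D - C (D.eval c) :=
      mul_divByMonic_eq_iff_isRoot.mpr hroot'
    have h2 : aeval xF D - algebraMap L F (D.eval c)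
        = (xF - algebraMap L F c) * aeval xF ((D - C (D.eval c)) /ₘ (X - C c)) := by
      have := congrArg (aeval xF) h1
      rw [map_mul, map_sub, aeval_X, aeval_C, map_sub, aeval_C] at this
      exact this.symm
    have hjc : algebraMap L F (D.eval c) ≠ 0 := by
      rw [Ne, map_eq_zero]; exact hDc
    refine ⟨1, Submonoid.one_mem _,
      -((aeval xF D)⁻¹ * algebraMap L F (D.eval c)⁻¹ * aeval xF ((D - C (D.eval c)) /ₘ (X - C c))),
      ?_, ?_⟩
    · exact Subalgebra.neg_mem _ (Subalgebra.mul_mem _ (Subalgebra.mul_mem _ hDinvB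
        (Subalgebra.algebraMap_mem _ _)) (aeval_mem_subalgebra _ hXB _))
    · rw [hevDinv, map_inv₀, one_mul]
      field_simp
      linear_combination (-1 : F) * h2
  -- all coefficients are strictly tame
  have htame₁ : ∀ b ∈ Algebra.adjoin L ({xF, (aeval xF D)⁻¹} : Set F),
      IsTame P hdeg (Algebra.adjoin L ({xF, (aeval xF D)⁻¹, yF} : Set F)) ⊥
        (xF - algebraMap L F c) b := by
    refine isTame_adjoin P hdeg _ hBO ⊥ ?_ _ _ ?_ ?_
    · intro s hs
      rw [Submonoid.mem_bot.mp hs]
      exact Subalgebra.one_mem _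
    · intro g hg
      simp only [Set.mem_insert_iff, Set.mem_singleton_iff] at hg
      rcases hg with rfl | rfl
      · exact hXB
      · exact hDinvB
    · intro g hg
      simp only [Set.mem_insert_iff, Set.mem_singleton_iff] at hg
      rcases hg with rfl | rfl
      · exact htX
      · exact htD
  have hcoefB₁ : ∀ z : F, (∃ p : L[X], z * aeval xF D = aeval xF p) →
      z ∈ Algebra.adjoin L ({xF, (aeval xF D)⁻¹} : Set F) := by
    rintro z ⟨p, hp⟩
    have h1 : z = aeval xF p * (aeval xF D)⁻¹ := by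
      rw [← hp, mul_assoc, mul_inv_cancel₀ hD0, mul_one]
    rw [h1]
    exact Subalgebra.mul_mem _ (aeval_mem_subalgebra _ (Algebra.subset_adjoin (by simp)) _)
      (Algebra.subset_adjoin (by simp))
  have hB₁B : Algebra.adjoin L ({xF, (aeval xF D)⁻¹} : Set F)
      ≤ Algebra.adjoin L ({xF, (aeval xF D)⁻¹, yF} : Set F) :=
    Algebra.adjoin_mono (by
      intro z hz
      simp only [Set.mem_insert_iff, Set.mem_singleton_iff] at hz ⊢
      tauto)
  have hcoefB : ∀ z : F, (∃ p : L[X], z * aeval xF D = aeval xF p) →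
      z ∈ Algebra.adjoin L ({xF, (aeval xF D)⁻¹, yF} : Set F) := fun z hz => hB₁B (hcoefB₁ z hz)
  -- `yF` is tame
  have hder : ev P hdeg (q.derivative.eval yF) ≠ 0 := by
    have hrO : r.eval yF ∈ P.toValuationSubring :=
      hBO _ (eval_mem_subalgebra _ r (fun k => hcoefB _ (hrc k)) hYB)
    have hqdO : q.derivative.eval yF ∈ P.toValuationSubring := by
      refine hBO _ (eval_mem_subalgebra _ _ (fun k => ?_) hYB)
      rw [coeff_derivative]
      have hk : ((k : F) + 1) = algebraMap L F ((k : L) + 1) := by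
        rw [map_add, map_natCast, map_one]
      rw [hk]
      exact Subalgebra.mul_mem _ (hcoefB _ (hqc (k + 1))) (Subalgebra.algebraMap_mem _ _)
    have h1 := ev_mul hdeg hrO hqdO
    rw [hbez, ev_one hdeg] at h1
    intro h0
    rw [h0, mul_zero] at h1
    exact one_ne_zero h1
  have htY : IsTame P hdeg (Algebra.adjoin L ({xF, (aeval xF D)⁻¹, yF} : Set F))
      (unitMonoid P hdeg _ hBO) (xF - algebraMap L F c) yF := by
    refine isTame_root P hdeg _ hBO _ hP q (fun k => hcoefB _ (hqc k)) (fun k => ?_) yF hYB hroot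
      hder
    obtain ⟨s, hs, β, hβ, hrel⟩ := htame₁ _ (hcoefB₁ _ (hqc k))
    rw [Submonoid.mem_bot.mp hs, one_mul] at hrel
    exact ⟨β, hβ, hrel⟩
  -- everything is tame
  have htame : ∀ b ∈ Algebra.adjoin L ({xF, (aeval xF D)⁻¹, yF} : Set F),
      IsTame P hdeg (Algebra.adjoin L ({xF, (aeval xF D)⁻¹, yF} : Set F))
        (unitMonoid P hdeg _ hBO) (xF - algebraMap L F c) b := by
    refine isTame_adjoin P hdeg _ hBO _ (fun s hs => ((mem_unitMonoid P hdeg _ hBO).mp hs).1) _ _ ?_ ?_
    · intro g hg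
      exact Algebra.subset_adjoin hg
    · intro g hg
      simp only [Set.mem_insert_iff, Set.mem_singleton_iff] at hg
      rcases hg with rfl | rfl | rfl
      · exact htX.mono P hdeg bot_le
      · exact htD.mono P hdeg bot_le
      · exact htY
  -- generation
  have hgen' : ∀ f : F, ∃ a ∈ Algebra.adjoin L ({xF, (aeval xF D)⁻¹, yF} : Set F),
      ∃ b ∈ Algebra.adjoin L ({xF, (aeval xF D)⁻¹, yF} : Set F), b ≠ 0 ∧ f * b = a := by
    intro f
    have hf : f ∈ IntermediateField.adjoin L ({xF, yF} : Set F) := by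
      rw [hgen]; exact IntermediateField.mem_top
    obtain ⟨a, ha, b, hb, hab⟩ := IntermediateField.mem_adjoin_iff_div.mp hf
    have hle : Algebra.adjoin L ({xF, yF} : Set F)
        ≤ Algebra.adjoin L ({xF, (aeval xF D)⁻¹, yF} : Set F) :=
      Algebra.adjoin_mono (by
        intro z hz
        simp only [Set.mem_insert_iff, Set.mem_singleton_iff] at hz ⊢
        tauto)
    by_cases hb0 : b = 0
    · refine ⟨0, Subalgebra.zero_mem _, 1, Subalgebra.one_mem _, one_ne_zero, ?_⟩
      rw [hab, hb0, div_zero, zero_mul]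
    · exact ⟨a, hle ha, b, hle hb, hb0, by rw [hab, div_mul_cancel₀ _ hb0]⟩
  exact ord_eq_one_of_isTame P hdeg _ hBO _ hP htame hgen'

end Fermat.Agent.S42.H74
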