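/-
S42 / Program A, DESC route (report #1867), leaf (SETUP) (helper74): the fields `branch` and
`branch_inv` of `Setup` for the constant family — `FL / L(x)` is unramified outside finitely
many points of `K`.
-/
import Fermat.Agent.S42.H74.ConstFinite
import Fermat.Agent.S42.H74.ConstRel
import Fermat.Agent.S42.H74.UnifRoot

set_option autoImplicit false

open AlgebraicCurve IntermediateField Polynomial

noncomputable section

namespace Fermat.Agent.S42.H74

variable {K L FK FL : Type*} [Field K] [Field L] [Field FK] [Field FL]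
  [Algebra K L] [Algebra K FK] [Algebra L FL] [Algebra FK FL] [Algebra K FL]
  [IsScalarTower K L FL] [IsScalarTower K FK FL]
  {A : ValuationSubring L} {O : ValuationSubring FL}

omit [IsScalarTower K L FL] in
theorem coe_aeval_eq [IsScalarTower K L FL] (x : FK) (r : K[X]) :
    algebraMap FK FL (aeval x r) = aeval (algebraMap FK FL x) (r.map (algebraMap K L)) := by
  rw [aeval_map_algebraMap, aeval_algebraMap_apply]

/-- Unramifiedness over a point `c` which is not a root of the common denominator. -/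
theorem branch_core [IsAlgClosed L] (h : ConstFamily K L FK FL A O) (x y : FK)
    (m bq : Polynomial K⟮x⟯) (d : K[X]) (hmon : m.Monic) (hmy : aeval y m = 0)
    (hbq : aeval y bq * aeval y (derivative m) = 1)
    (hxy : IntermediateField.adjoin K {x, y} = ⊤)
    (hmc : ∀ k, ∃ p : K[X], ((m.coeff k : K⟮x⟯) : FK) * aeval x d = aeval x p)
    (hbc : ∀ k, ∃ p : K[X], ((bq.coeff k : K⟮x⟯) : FK) * aeval x d = aeval x p)
    (P : Place L FL) (c : L) (hdc : (d.map (algebraMap K L)).eval c ≠ 0)
    (hP : 0 < P.ord (algebraMap FK FL x - algebraMap L FL c)) :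
    P.ord (algebraMap FK FL x - algebraMap L FL c) = 1 := by
  obtain ⟨hfin, -⟩ := finite_and_finrank_le h x y hxy m hmon hmy
  have hdeg : P.deg = 1 := Fermat.Agent.S24.deg_eq_one (algebraMap FK FL x) P
  have hgen : IntermediateField.adjoin L {algebraMap FK FL x, algebraMap FK FL y} = ⊤ := by
    rw [← IntermediateField.adjoin_simple_adjoin_simple, adjoin_eq_top h x y hxy,
      IntermediateField.restrictScalars_top]
  have hev : ∀ r : Polynomial K⟮x⟯,
      ((r.map (phi L FL x)).map (algebraMap L⟮algebraMap FK FL x⟯ FL)).eval (algebraMap FK FL y)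
        = algebraMap FK FL (aeval y r) := by
    intro r
    rw [eval_map, ← aeval_def, aeval_map_phi]
  have hco : ∀ (r : Polynomial K⟮x⟯) (k : ℕ),
      ((r.map (phi L FL x)).map (algebraMap L⟮algebraMap FK FL x⟯ FL)).coeff k
        = algebraMap FK FL ((r.coeff k : K⟮x⟯) : FK) := by
    intro r k
    rw [coeff_map, coeff_map]
    rfl
  have hden : ∀ (r : Polynomial K⟮x⟯),
      (∀ k, ∃ p : K[X], ((r.coeff k : K⟮x⟯) : FK) * aeval x d = aeval x p) →
      ∀ k, ∃ p : L[X],
        ((r.map (phi L FL x)).map (algebraMap L⟮algebraMap FK FL x⟯ FL)).coeff k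
          * aeval (algebraMap FK FL x) (d.map (algebraMap K L)) = aeval (algebraMap FK FL x) p := by
    intro r hr k
    obtain ⟨p, hp⟩ := hr k
    refine ⟨p.map (algebraMap K L), ?_⟩
    rw [hco, ← coe_aeval_eq, ← coe_aeval_eq, ← map_mul, hp]
  refine ord_eq_one_of_simple_root P hdeg _ (algebraMap FK FL y) c hP (d.map (algebraMap K L)) hdc
    ((m.map (phi L FL x)).map (algebraMap L⟮algebraMap FK FL x⟯ FL))
    ((bq.map (phi L FL x)).map (algebraMap L⟮algebraMap FK FL x⟯ FL))
    ((hmon.map _).map _) ?_ ?_ (hden m hmc) (hden bq hbc) hgen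
  · rw [hev, hmy, map_zero]
  · rw [derivative_map, derivative_map, hev, hev, ← map_mul, hbq, map_one]

open Classical in
/-- `FL / L(x)` is unramified outside a finite set of points of `K`. -/
theorem branch_const [IsAlgClosed K] [CharZero K] [IsAlgClosed L]
    (h : ConstFamily K L FK FL A O) (x : FK) [FiniteDimensional K⟮x⟯ FK] :
    ∃ S₀ : Finset K, ∀ (P : Place L FL) (c : L), c ∉ S₀.image (algebraMap K L) →
      0 < P.ord (algebraMap FK FL x - algebraMap L FL c) →
      P.ord (algebraMap FK FL x - algebraMap L FL c) = 1 := by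
  classical
  obtain ⟨y, m, bq, d, hd, hmon, hmy, -, hbq, hxy, hmc, hbc⟩ := exists_rel (K := K) x
  have hd0 : d ≠ 0 := by
    rintro rfl
    simp at hd
  refine ⟨d.roots.toFinset, fun P c hc hP => ?_⟩
  refine branch_core h x y m bq d hmon hmy hbq hxy hmc hbc P c (fun h0 => hc ?_) hP
  have hroots : (d.map (algebraMap K L)).roots = d.roots.map (algebraMap K L) :=
    (IsAlgClosed.splits d).roots_map _
  have hmem : c ∈ (d.map (algebraMap K L)).roots :=
    (mem_roots (Polynomial.map_ne_zero hd0)).mpr h0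
  rw [hroots, Multiset.mem_map] at hmem
  obtain ⟨c₀, hc₀, rfl⟩ := hmem
  exact Finset.mem_image_of_mem _ (Multiset.mem_toFinset.mpr hc₀)

/-- Images of finite subsets of `K` are admissible branch sets. -/
theorem image_admissible (h : ConstFamily K L FK FL A O) (S₀ : Finset K) [DecidableEq L] :
    (∀ c ∈ S₀.image (algebraMap K L), c ∈ A) ∧
    (∀ c ∈ S₀.image (algebraMap K L), ∀ c' ∈ S₀.image (algebraMap K L), c ≠ c' →
      (c - c')⁻¹ ∈ A) := by
  refine ⟨fun c hc => ?_, fun c hc c' hc' _ => ?_⟩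
  · obtain ⟨c₀, -, rfl⟩ := Finset.mem_image.mp hc
    exact h.const_mem c₀
  · obtain ⟨c₀, -, rfl⟩ := Finset.mem_image.mp hc
    obtain ⟨c₀', -, rfl⟩ := Finset.mem_image.mp hc'
    rw [← map_sub, ← map_inv₀]
    exact h.const_mem _

/-- The fields `branch` and `branch_inv` of `Setup` for the constant family. -/
theorem branch_fields [IsAlgClosed K] [CharZero K] [IsAlgClosed L]
    (h : ConstFamily K L FK FL A O) (x : FK) [FiniteDimensional K⟮x⟯ FK] :
    (∃ S : Finset L, (∀ c ∈ S, c ∈ A) ∧ (∀ c ∈ S, ∀ c' ∈ S, c ≠ c' → (c - c')⁻¹ ∈ A) ∧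
      ∀ (P : Place L FL) (c : L), c ∉ S →
        0 < P.ord (algebraMap FK FL x - algebraMap L FL c) →
        P.ord (algebraMap FK FL x - algebraMap L FL c) = 1) ∧
    (∃ S : Finset L, (∀ c ∈ S, c ∈ A) ∧ (∀ c ∈ S, ∀ c' ∈ S, c ≠ c' → (c - c')⁻¹ ∈ A) ∧
      ∀ (P : Place L FL) (c : L), c ∉ S →
        0 < P.ord ((algebraMap FK FL x)⁻¹ - algebraMap L FL c) →
        P.ord ((algebraMap FK FL x)⁻¹ - algebraMap L FL c) = 1) := by
  classical
  obtain ⟨S₀, hS₀⟩ := branch_const h x
  refine ⟨⟨S₀.image (algebraMap K L), (image_admissible h S₀).1, (image_admissible h S₀).2, hS₀⟩,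
    ⟨(insert 0 (S₀.image (·⁻¹))).image (algebraMap K L), (image_admissible h _).1,
      (image_admissible h _).2, fun P c hc hP => ?_⟩⟩
  have hc0 : c ≠ 0 := by
    rintro rfl
    exact hc (Finset.mem_image.mpr ⟨0, Finset.mem_insert_self _ _, map_zero _⟩)
  have hjc : algebraMap L FL c ≠ 0 := by
    rw [Ne, map_eq_zero]; exact hc0
  have hne : (algebraMap FK FL x)⁻¹ - algebraMap L FL c ≠ 0 :=
    Fermat.Agent.S24.H94.ne_zero_of_ord_pos P hP
  have hix : algebraMap FK FL x ≠ 0 := by
    intro h0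
    rw [h0, inv_zero, zero_sub, Fermat.Agent.S24.ord_neg, Fermat.Agent.S18.H29.ord_const] at hP
    exact lt_irrefl _ hP
  have hu : (algebraMap FK FL x)⁻¹ ≠ 0 := inv_ne_zero hix
  have hfac : (algebraMap FK FL x)⁻¹ - algebraMap L FL c
      = -(algebraMap L FL c) * (algebraMap FK FL x)⁻¹
        * (algebraMap FK FL x - algebraMap L FL c⁻¹) := by
    rw [map_inv₀]
    field_simp
    ring
  have hne2 : algebraMap FK FL x - algebraMap L FL c⁻¹ ≠ 0 := by
    intro h0
    rw [hfac, h0, mul_zero] at hne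
    exact hne rfl
  have hordu : P.ord (algebraMap FK FL x)⁻¹ = 0 := by
    have h1 : (algebraMap FK FL x)⁻¹
        = algebraMap L FL c + ((algebraMap FK FL x)⁻¹ - algebraMap L FL c) := by ring
    have h2 := (Fermat.Agent.S24.ord_add_eq_of_lt P hjc
      (g := (algebraMap FK FL x)⁻¹ - algebraMap L FL c)
      (Or.inr (by rw [Fermat.Agent.S18.H29.ord_const]; exact hP))).2
    rw [← h1, Fermat.Agent.S18.H29.ord_const] at h2
    exact h2
  have hord : P.ord ((algebraMap FK FL x)⁻¹ - algebraMap L FL c)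
      = P.ord (algebraMap FK FL x - algebraMap L FL c⁻¹) := by
    conv_lhs => rw [hfac]
    rw [P.ord_mul (mul_ne_zero (neg_ne_zero.mpr hjc) hu) hne2,
      P.ord_mul (neg_ne_zero.mpr hjc) hu, Fermat.Agent.S24.ord_neg, Fermat.Agent.S18.H29.ord_const, hordu]
    ring
  rw [hord] at hP ⊢
  refine hS₀ P c⁻¹ (fun hmem => hc ?_) hP
  obtain ⟨c₀, hc₀, hcc⟩ := Finset.mem_image.mp hmem
  refine Finset.mem_image.mpr ⟨c₀⁻¹, Finset.mem_insert_of_mem (Finset.mem_image_of_mem _ hc₀), ?_⟩
  rw [map_inv₀, hcc, inv_inv]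

end Fermat.Agent.S42.H74
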