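/-
S42 / Program A, DESC route (report #1867), leaf (SETUP) (helper74): the field `basis` of
`Setup` for the constant family, second half — traces and the Gram determinant are compatible
with the base change `K(x) → L(x)`; assembly of the field.
-/
import Fermat.Agent.S42.H74.ConstBasis

set_option autoImplicit false

open IntermediateField Polynomial

noncomputable section

namespace Fermat.Agent.S42.H74

variable {K L FK FL : Type*} [Field K] [Field L] [Field FK] [Field FL]
  [Algebra K L] [Algebra K FK] [Algebra L FL] [Algebra FK FL] [Algebra K FL]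
  [IsScalarTower K L FL] [IsScalarTower K FK FL]
  {A : ValuationSubring L} {O : ValuationSubring FL}

/-- Transport of a family along an equality of the index size. -/
theorem exists_cast_fin {n n' : ℕ} (hn : n = n') (P : ∀ m : ℕ, (Fin m → FL) → Prop)
    (θ : Fin n → FL) (hθ : P n θ) : ∃ θ' : Fin n' → FL, P n' θ' := by
  subst hn
  exact ⟨θ, hθ⟩

/-- The field `basis` of `Setup` for the constant family. -/
theorem basis_const [CharZero K] (hA : A ≠ ⊤) (h : ConstFamily K L FK FL A O) {x : FK}
    (hx : Transcendental K x) [FiniteDimensional K⟮x⟯ FK]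
    (hfin : FiniteDimensional L⟮algebraMap FK FL x⟯ FL)
    (hle : Module.finrank L⟮algebraMap FK FL x⟯ FL ≤ Module.finrank K⟮x⟯ FK) :
    ∃ θ : Fin (Module.finrank L⟮algebraMap FK FL x⟯ FL) → FL,
      (∀ r : Fin (Module.finrank L⟮algebraMap FK FL x⟯ FL) → L⟮algebraMap FK FL x⟯,
        (∑ i, (r i : FL) * θ i) ∈ O ↔ ∀ i, (r i : FL) ∈ O) ∧
      ((Fermat.Agent.S18.H74.gramDet L FL (algebraMap FK FL x) θ : L⟮algebraMap FK FL x⟯) : FL)⁻¹
        ∈ O := by
  classical
  have hchar : CharZero K⟮x⟯ := charZero_of_injective_algebraMap (algebraMap K K⟮x⟯).injective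
  set μ := Module.finrank K⟮x⟯ FK with hμ
  let b : Module.Basis (Fin μ) K⟮x⟯ FK := Module.finBasis K⟮x⟯ FK
  have hb : LinearIndependent K⟮x⟯ b := b.linearIndependent
  set θ₀ : Fin μ → FL := fun k => algebraMap FK FL (b k) with hθ₀
  have horth : ∀ r : Fin μ → L⟮algebraMap FK FL x⟯,
      (∑ k, (r k : FL) * θ₀ k) ∈ O ↔ ∀ k, (r k : FL) ∈ O :=
    fun r => orthonormal_const hA h hx b hb r
  have hli : LinearIndependent L⟮algebraMap FK FL x⟯ θ₀ :=
    Fermat.Agent.S18.H49.linearIndependent_of_orthonormal hA h.mem_iff θ₀ horth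
  have hcard : μ = Module.finrank L⟮algebraMap FK FL x⟯ FL := by
    refine le_antisymm ?_ hle
    have := hli.fintype_card_le_finrank
    simpa using this
  have hne : Nonempty (Fin μ) := ⟨⟨0, Module.finrank_pos⟩⟩
  let bL : Module.Basis (Fin μ) L⟮algebraMap FK FL x⟯ FL :=
    basisOfLinearIndependentOfCardEqFinrank hli (by simp [hcard])
  have hbL : ∀ k, bL k = algebraMap FK FL (b k) := fun k => by
    simp only [bL, coe_basisOfLinearIndependentOfCardEqFinrank, hθ₀]
  -- coordinates
  have hrepr : ∀ (f : FK) (l k : Fin μ),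
      bL.repr (algebraMap FK FL f * bL l) k = phi L FL x (b.repr (f * b l) k) := by
    intro f l k
    have h1 : algebraMap FK FL f * bL l
        = ∑ k', phi L FL x (b.repr (f * b l) k') • bL k' := by
      calc algebraMap FK FL f * bL l = algebraMap FK FL (f * b l) := by rw [hbL, map_mul]
        _ = algebraMap FK FL (∑ k', b.repr (f * b l) k' • b k') := by rw [b.sum_repr]
        _ = ∑ k', phi L FL x (b.repr (f * b l) k') • bL k' := by
          rw [map_sum]
          refine Finset.sum_congr rfl fun k' _ => ?_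
          rw [hbL, Algebra.smul_def, Algebra.smul_def, map_mul]
          rfl
    rw [h1, bL.repr_sum_self]
  -- traces
  have htrace : ∀ f : FK, Algebra.trace L⟮algebraMap FK FL x⟯ FL (algebraMap FK FL f)
      = phi L FL x (Algebra.trace K⟮x⟯ FK f) := by
    intro f
    rw [Algebra.trace_eq_matrix_trace bL, Algebra.trace_eq_matrix_trace b, Matrix.trace,
      Matrix.trace, map_sum]
    refine Finset.sum_congr rfl fun k _ => ?_
    rw [Matrix.diag_apply, Matrix.diag_apply, Algebra.leftMulMatrix_eq_repr_mul,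
      Algebra.leftMulMatrix_eq_repr_mul, hrepr]
  -- Gram determinants
  have hgram : Fermat.Agent.S18.H74.gramDet L FL (algebraMap FK FL x) θ₀
      = phi L FL x (Fermat.Agent.S18.H74.gramDet K FK x b) := by
    unfold Fermat.Agent.S18.H74.gramDet
    rw [RingHom.map_det]
    congr 1
    ext k l
    simp only [Matrix.of_apply, RingHom.mapMatrix_apply, Matrix.map_apply]
    rw [← htrace, RingHom.map_mul]
  have hD : (Fermat.Agent.S18.H74.gramDet K FK x b : K⟮x⟯) ≠ 0 := by
    have h1 : Fermat.Agent.S18.H74.gramDet K FK x b = Algebra.discr K⟮x⟯ b := by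
      unfold Fermat.Agent.S18.H74.gramDet
      rw [Algebra.discr_def]
      congr 1
    rw [h1]
    exact Algebra.discr_not_zero_of_basis K⟮x⟯ b
  have hinv : ((Fermat.Agent.S18.H74.gramDet L FL (algebraMap FK FL x) θ₀ :
      L⟮algebraMap FK FL x⟯) : FL)⁻¹ ∈ O := by
    rw [hgram, coe_phi]
    exact h.coe_inv_mem _
  exact exists_cast_fin hcard
    (fun m θ => (∀ r : Fin m → L⟮algebraMap FK FL x⟯,
        (∑ i, (r i : FL) * θ i) ∈ O ↔ ∀ i, (r i : FL) ∈ O) ∧
      ((Fermat.Agent.S18.H74.gramDet L FL (algebraMap FK FL x) θ : L⟮algebraMap FK FL x⟯) : FL)⁻¹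
        ∈ O) θ₀ ⟨horth, hinv⟩

end Fermat.Agent.S42.H74
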