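/-
S42 / Program A, DESC route (report #1867), leaf (SETUP) (helper74): THE CONSTANT FAMILY IS A
`Setup`.

`K ≤ L` algebraically closed fields of characteristic zero, `A ≠ ⊤` a valuation subring of `L`
containing `K`; `FK / K` a field extension, `FL = L(FK)` with its Gauss valuation ring `O`
(`ConstFamily`, file `ConstDefs.lean`).  Then for every `x ∈ FK` transcendental over `K` with
`FK / K(x)` finite, `(L, A, FL, O, x)` is a `Fermat.Agent.S18.H74.Setup`; hence (landed
`Fermat.Agent.S18.H74.absT_of_setup_general`) the abstract Theorem T holds in `FL` for every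
exponent invertible in `A`, as soon as `A` has rank one.
-/
import Fermat.Agent.S42.H74.ConstGram
import Fermat.Agent.S42.H74.ConstBranch

set_option autoImplicit false

open AlgebraicCurve IntermediateField

noncomputable section

namespace Fermat.Agent.S42.H74

/-- **The constant family is a `Setup`.** -/
theorem setup_const {K L FK FL : Type*} [Field K] [Field L] [Field FK] [Field FL]
    [Algebra K L] [Algebra K FK] [Algebra L FL] [Algebra FK FL] [Algebra K FL]
    [IsScalarTower K L FL] [IsScalarTower K FK FL]
    [IsAlgClosed K] [CharZero K] [IsAlgClosed L]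
    {A : ValuationSubring L} {O : ValuationSubring FL} (hA : A ≠ ⊤)
    (h : ConstFamily K L FK FL A O) (x : FK) (hx : Transcendental K x)
    [FiniteDimensional K⟮x⟯ FK] :
    Fermat.Agent.S18.H74.Setup L A FL O (algebraMap FK FL x) := by
  obtain ⟨y, m, bq, d, hd, hmon, hmy, hdeg, hbq, hxy, hmc, hbc⟩ := exists_rel (K := K) x
  obtain ⟨hfin, hle⟩ := finite_and_finrank_le h x y hxy m hmon hmy
  rw [hdeg] at hle
  have hgauss := h.gaussHyp hx
  have hbasis := basis_const hA h hx hfin hle
  obtain ⟨hbr, hbri⟩ := branch_fields h x
  refine
    { mem_iff := h.mem_iff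
      gauss := hgauss
      scale := h.scale
      finite := hfin
      basis := hbasis
      branch := hbr
      branch_inv := hbri
      cartesian := ?_ }
  obtain ⟨θ, hθ, -⟩ := hbasis
  exact Fermat.Agent.S18.H49.cartesian_of_setup_fields hA h.mem_iff hgauss hfin ⟨θ, hθ⟩

end Fermat.Agent.S42.H74
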